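import Fermat.Agent.MzCusp.DeltaQuot

set_option autoImplicit false

/-!
# The unit `G(τ)/G(pτ)`, `G = θ⁴ = η(2τ)²⁰/(η(τ)⁸ η(4τ)⁸)`: formal series
-/

noncomputable section

open ModularCurve

namespace Fermat.Agent.LU1

open Fermat.Agent.MzCusp

section Eta

variable (R : Type*) [CommRing R]

/-- the inverse of the Euler product `∏ (1 - qⁿ)` -/
def etaProdInv : PowerSeries ℤ := etaProd.invOfUnit 1

theorem etaProd_mul_inv : etaProd * etaProdInv = 1 :=
  PowerSeries.mul_invOfUnit _ _ (by rw [constantCoeff_etaProd]; rfl)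

/-- the Euler product `∏ (1 - qⁿ)` as a Laurent series -/
def etaL : LaurentSeries R :=
  HahnSeries.ofPowerSeries ℤ R (etaProd.map (Int.castRingHom R))

/-- its inverse -/
def etaInvL : LaurentSeries R :=
  HahnSeries.ofPowerSeries ℤ R (etaProdInv.map (Int.castRingHom R))

theorem etaL_mul_inv : etaL R * etaInvL R = 1 := by
  rw [etaL, etaInvL, ← map_mul, ← map_mul, etaProd_mul_inv, map_one, map_one]

theorem deltaL_eq : deltaL R = HahnSeries.single (1 : ℤ) 1 * etaL R ^ 24 := by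
  rw [deltaL, Fermat.Agent.ModPoly.deltaPS, dedekindEtaUnit, map_mul, map_mul, PowerSeries.map_X,
    HahnSeries.ofPowerSeries_X, map_pow, map_pow, etaL]

variable {R} in
theorem coeffMap_etaL {S : Type*} [CommRing S] (f : R →+* S) :
    coeffMap f (etaL R) = etaL S := by
  rw [etaL, coeffMap_ofPowerSeries, ← RingHom.comp_apply (PowerSeries.map f)
    (PowerSeries.map (Int.castRingHom R)), ← PowerSeries.map_comp,
    RingHom.ext_int (f.comp (Int.castRingHom R)) (Int.castRingHom S)]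
  rfl

variable {R} in
theorem coeffMap_etaInvL {S : Type*} [CommRing S] (f : R →+* S) :
    coeffMap f (etaInvL R) = etaInvL S := by
  rw [etaInvL, coeffMap_ofPowerSeries, ← RingHom.comp_apply (PowerSeries.map f)
    (PowerSeries.map (Int.castRingHom R)), ← PowerSeries.map_comp,
    RingHom.ext_int (f.comp (Int.castRingHom R)) (Int.castRingHom S)]
  rfl

/-- the expansion of `G = η(2τ)²⁰/(η(τ)⁸ η(4τ)⁸)` -/
def gL : LaurentSeries R :=
  qExpand R 2 (etaL R) ^ 20 * etaInvL R ^ 8 * qExpand R 4 (etaInvL R) ^ 8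

/-- the expansion of `1/G` -/
def gInvL : LaurentSeries R :=
  qExpand R 2 (etaInvL R) ^ 20 * etaL R ^ 8 * qExpand R 4 (etaL R) ^ 8

theorem qExpand_etaL_mul_inv (d : ℕ) [NeZero d] :
    qExpand R d (etaL R) * qExpand R d (etaInvL R) = 1 := by
  rw [← map_mul, etaL_mul_inv, map_one]

theorem gL_mul_inv : gL R * gInvL R = 1 := by
  have h1 := etaL_mul_inv R
  have h2 := qExpand_etaL_mul_inv R 2
  have h4 := qExpand_etaL_mul_inv R 4
  calc gL R * gInvL R = (qExpand R 2 (etaL R) * qExpand R 2 (etaInvL R)) ^ 20 *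
        (etaL R * etaInvL R) ^ 8 * (qExpand R 4 (etaL R) * qExpand R 4 (etaInvL R)) ^ 8 := by
        rw [gL, gInvL]; ring
    _ = 1 := by rw [h1, h2, h4]; simp

variable {R} in
theorem coeffMap_gL {S : Type*} [CommRing S] (f : R →+* S) : coeffMap f (gL R) = gL S := by
  rw [gL, map_mul, map_mul, map_pow, map_pow, map_pow, coeffMap_qExpand, coeffMap_qExpand,
    coeffMap_etaL, coeffMap_etaInvL, gL]

variable {R} in
theorem coeffMap_gInvL {S : Type*} [CommRing S] (f : R →+* S) :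
    coeffMap f (gInvL R) = gInvL S := by
  rw [gInvL, map_mul, map_mul, map_pow, map_pow, map_pow, coeffMap_qExpand, coeffMap_qExpand,
    coeffMap_etaL, coeffMap_etaInvL, gInvL]

/-- `G⁶ Δ² Δ(4τ)² = Δ(2τ)⁵` -/
theorem gL_pow : gL R ^ 6 * deltaL R ^ 2 * qExpand R 4 (deltaL R) ^ 2 =
    qExpand R 2 (deltaL R) ^ 5 := by
  have h1 := etaL_mul_inv R
  have h4 := qExpand_etaL_mul_inv R 4
  rw [deltaL_eq, map_mul, map_mul, map_pow, map_pow, gL]
  have e4 : qExpand R 4 (HahnSeries.single (1 : ℤ) 1) = HahnSeries.single (4 : ℤ) (1 : R) := by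
    rw [qExpand_single]; norm_num
  have e2 : qExpand R 2 (HahnSeries.single (1 : ℤ) 1) = HahnSeries.single (2 : ℤ) (1 : R) := by
    rw [qExpand_single]; norm_num
  rw [e4, e2]
  have s1 : (HahnSeries.single (1 : ℤ) (1 : R)) ^ 2 * HahnSeries.single (4 : ℤ) (1 : R) ^ 2 =
      HahnSeries.single (2 : ℤ) (1 : R) ^ 5 := by
    rw [HahnSeries.single_pow, HahnSeries.single_pow, HahnSeries.single_pow,
      HahnSeries.single_mul_single]
    norm_num
  calc _ = ((HahnSeries.single (1 : ℤ) (1 : R)) ^ 2 * HahnSeries.single (4 : ℤ) (1 : R) ^ 2) *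
        qExpand R 2 (etaL R) ^ 120 * (etaL R * etaInvL R) ^ 48 *
        (qExpand R 4 (etaL R) * qExpand R 4 (etaInvL R)) ^ 48 := by ring
    _ = _ := by rw [s1, h1, h4]; ring

variable (p : ℕ) [NeZero p]

/-- the expansion of `G(τ)/G(pτ)` -/
def vL : LaurentSeries R := gL R * qExpand R p (gInvL R)

/-- the expansion of `G(pτ)/G(τ)` -/
def vInvL : LaurentSeries R := gInvL R * qExpand R p (gL R)

theorem vL_mul_inv : vL R p * vInvL R p = 1 := by
  rw [vL, vInvL]
  calc _ = (gL R * gInvL R) * (qExpand R p (gL R) * qExpand R p (gInvL R)) := by ring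
    _ = 1 := by rw [← map_mul, gL_mul_inv, map_one, one_mul]

variable {R} in
theorem coeffMap_vL {S : Type*} [CommRing S] (f : R →+* S) : coeffMap f (vL R p) = vL S p := by
  rw [vL, map_mul, coeffMap_qExpand, coeffMap_gL, coeffMap_gInvL, vL]

variable {R} in
theorem coeffMap_vInvL {S : Type*} [CommRing S] (f : R →+* S) :
    coeffMap f (vInvL R p) = vInvL S p := by
  rw [vInvL, map_mul, coeffMap_qExpand, coeffMap_gL, coeffMap_gInvL, vInvL]

theorem qExpand_comm (a b : ℕ) [NeZero a] [NeZero b] (f : LaurentSeries R) :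
    qExpand R a (qExpand R b f) = qExpand R b (qExpand R a f) := by
  rw [qExpand_qExpand, qExpand_qExpand]
  exact qExpand_congr (mul_comm a b) f

theorem gInvL_pow : gInvL R ^ 6 * deltaInvL R ^ 2 * qExpand R 4 (deltaInvL R) ^ 2 =
    qExpand R 2 (deltaInvL R) ^ 5 := by
  have h1 := deltaL_mul_inv R
  have h2 : qExpand R 2 (deltaL R) * qExpand R 2 (deltaInvL R) = 1 := by
    rw [← map_mul, h1, map_one]
  have h4 : qExpand R 4 (deltaL R) * qExpand R 4 (deltaInvL R) = 1 := by
    rw [← map_mul, h1, map_one]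
  have hg := gL_mul_inv R
  have h5 := gL_pow R
  calc _ = (gInvL R ^ 6 * deltaInvL R ^ 2 * qExpand R 4 (deltaInvL R) ^ 2) *
        (qExpand R 2 (deltaL R) * qExpand R 2 (deltaInvL R)) ^ 5 := by rw [h2]; ring
    _ = (gInvL R ^ 6 * deltaInvL R ^ 2 * qExpand R 4 (deltaInvL R) ^ 2) *
        (qExpand R 2 (deltaL R) ^ 5 * qExpand R 2 (deltaInvL R) ^ 5) := by rw [mul_pow]
    _ = (gL R * gInvL R) ^ 6 * (deltaL R * deltaInvL R) ^ 2 *
        (qExpand R 4 (deltaL R) * qExpand R 4 (deltaInvL R)) ^ 2 *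
        qExpand R 2 (deltaInvL R) ^ 5 := by rw [← h5]; ring
    _ = _ := by rw [hg, h1, h4]; ring

/-- `v⁶ u² u(q⁴)² = u(q²)⁵` -/
theorem vL_pow : vL R p ^ 6 * uL R p ^ 2 * qExpand R 4 (uL R p) ^ 2 =
    qExpand R 2 (uL R p) ^ 5 := by
  have h5 := gL_pow R
  have h6 := congrArg (qExpand R p) (gInvL_pow R)
  rw [map_mul, map_mul, map_pow, map_pow, map_pow, map_pow] at h6
  rw [vL, uL, map_mul, map_mul, qExpand_comm R 4 p, qExpand_comm R 2 p]
  calc _ = (gL R ^ 6 * deltaL R ^ 2 * qExpand R 4 (deltaL R) ^ 2) *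
        (qExpand R p (gInvL R) ^ 6 * qExpand R p (deltaInvL R) ^ 2 *
          qExpand R p (qExpand R 4 (deltaInvL R)) ^ 2) := by ring
    _ = _ := by rw [h5, h6]; ring

theorem etaL_coeff_zero : (etaL R).coeff 0 = 1 := by
  have h : (etaL R).coeff ((0 : ℕ) : ℤ) = 1 := by
    rw [etaL, HahnSeries.ofPowerSeries_apply_coeff, PowerSeries.coeff_map,
      PowerSeries.coeff_zero_eq_constantCoeff, constantCoeff_etaProd, map_one]
  exact_mod_cast h

end Eta

section Field

variable (K : Type*) [Field K]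

theorem etaL_ne_zero : etaL K ≠ 0 := left_ne_zero_of_mul_eq_one (etaL_mul_inv K)

theorem etaInvL_ne_zero : etaInvL K ≠ 0 := right_ne_zero_of_mul_eq_one (etaL_mul_inv K)

theorem gL_ne_zero : gL K ≠ 0 := left_ne_zero_of_mul_eq_one (gL_mul_inv K)

theorem gInvL_ne_zero : gInvL K ≠ 0 := right_ne_zero_of_mul_eq_one (gL_mul_inv K)

theorem vL_ne_zero (p : ℕ) [NeZero p] : vL K p ≠ 0 :=
  left_ne_zero_of_mul_eq_one (vL_mul_inv K p)

theorem vInvL_ne_zero (p : ℕ) [NeZero p] : vInvL K p ≠ 0 :=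
  right_ne_zero_of_mul_eq_one (vL_mul_inv K p)

theorem vInvL_eq (p : ℕ) [NeZero p] : vInvL K p = (vL K p)⁻¹ :=
  eq_inv_of_mul_eq_one_right (vL_mul_inv K p)

theorem order_etaL : (etaL K).order = 0 := by
  apply le_antisymm
  · apply HahnSeries.order_le_of_coeff_ne_zero
    rw [etaL_coeff_zero]
    exact one_ne_zero
  · by_contra hcon
    push Not at hcon
    exact (HahnSeries.coeff_order_eq_zero.not.2 (etaL_ne_zero K))
      (ofPowerSeries_coeff_of_neg _ hcon)

theorem order_etaInvL : (etaInvL K).order = 0 := by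
  have h2 := congrArg HahnSeries.order (etaL_mul_inv K)
  rw [HahnSeries.order_mul (etaL_ne_zero K) (etaInvL_ne_zero K), order_etaL, HahnSeries.order_one]
    at h2
  omega

theorem order_gL : (gL K).order = 0 := by
  have h2 : qExpand K 2 (etaL K) ≠ 0 := by
    rw [map_ne_zero_iff _ (qExpand_injective (R := K) 2)]; exact etaL_ne_zero K
  have h4 : qExpand K 4 (etaInvL K) ≠ 0 := by
    rw [map_ne_zero_iff _ (qExpand_injective (R := K) 4)]; exact etaInvL_ne_zero K
  have h1 := etaInvL_ne_zero K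
  rw [gL, HahnSeries.order_mul (mul_ne_zero (pow_ne_zero _ h2) (pow_ne_zero _ h1))
    (pow_ne_zero _ h4), HahnSeries.order_mul (pow_ne_zero _ h2) (pow_ne_zero _ h1),
    HahnSeries.order_pow, HahnSeries.order_pow, HahnSeries.order_pow,
    Fermat.Agent.ModPoly.order_qExpand, Fermat.Agent.ModPoly.order_qExpand, order_etaL,
    order_etaInvL]
  simp

theorem order_vL (p : ℕ) [NeZero p] : (vL K p).order = 0 := by
  have h2 : qExpand K p (gInvL K) ≠ 0 := by
    rw [map_ne_zero_iff _ (qExpand_injective (R := K) p)]; exact gInvL_ne_zero K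
  have h3 : (gInvL K).order = 0 := by
    have h2 := congrArg HahnSeries.order (gL_mul_inv K)
    rw [HahnSeries.order_mul (gL_ne_zero K) (gInvL_ne_zero K), order_gL, HahnSeries.order_one]
      at h2
    omega
  rw [vL, HahnSeries.order_mul (gL_ne_zero K) h2, Fermat.Agent.ModPoly.order_qExpand, order_gL, h3]
  simp

end Field

end Fermat.Agent.LU1

end
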