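import Fermat.Agent.LU1.Main
import Fermat.Agent.LU2.UDat

/-!
# The unit `v = G(τ)/G(pτ)` satisfies `LU2.IsV`
-/

set_option autoImplicit false

noncomputable section

open ModularCurve

namespace Fermat.Agent.LU1

/-- **`v = G(τ)/G(pτ)` satisfies `LU2.IsV`.** -/
theorem isV {L : Type*} [Field L] [Algebra ℚ L] [IsAlgClosed L] (ι : L →+* ℂ)
    (p : ℕ) [NeZero p] : Fermat.Agent.LU2.IsV L p (vL L p) :=
  ⟨vL_mem ι p, vL_pow L p⟩

end Fermat.Agent.LU1

end
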