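import Fermat.Agent.MzCusp.DeltaQuot

/-!
# Roots and inverses of modular functions: Laurent expansions

A holomorphic `Γ₀(N)`-invariant function on the upper half plane, one of whose powers is
meromorphic at the cusps, is meromorphic at the cusps.
-/

set_option autoImplicit false

noncomputable section

open UpperHalfPlane Function ModularCurve Filter ModularForm
open scoped Manifold MatrixGroups Topology ModularForm

namespace Fermat.Agent.LU1

open Function.Periodic (qParam)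
open Fermat.Agent.X0Places

/-- `q` is holomorphic -/
theorem mdiff_qParam (h : ℝ) : MDiff (fun τ : ℍ => qParam h τ) := by
  rw [UpperHalfPlane.mdifferentiable_iff]
  have h4 : DifferentiableOn ℂ (fun z : ℂ => qParam h z) {z | 0 < z.im} :=
    (Function.Periodic.differentiable_qParam (h := h)).differentiableOn
  refine h4.congr fun z hz => ?_
  rw [comp_apply, ofComplex_apply_of_im_pos hz]

theorem mdiff_pow {f : ℍ → ℂ} (hf : MDiff f) (n : ℕ) : MDiff (fun τ => f τ ^ n) := by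
  rw [UpperHalfPlane.mdifferentiable_iff] at hf ⊢
  have h2 : (fun z : ℍ => (f z) ^ n) ∘ ofComplex = (f ∘ ofComplex) ^ n := rfl
  rw [h2]
  exact hf.pow n

/-- `q` is bounded at `i∞` -/
theorem bounded_qParam {h : ℝ} (hh : 0 < h) : IsBoundedAtImInfty (fun τ : ℍ => qParam h τ) :=
  (qParam_tendsto_atImInfty hh).isBigO_one ℝ

theorem periodic_qParam_comp {h : ℝ} (hh : 0 < h) :
    Periodic ((fun τ : ℍ => qParam h τ) ∘ ofComplex) h := by
  have h1 : HasQExp h (fun τ : ℍ => qParam h τ ^ 1) (PowerSeries.X ^ 1) := HasQExp.X_pow 1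
  simp only [pow_one] at h1
  exact h1.periodic hh.ne'

/-- if a power of a function is bounded at `i∞`, so is the function -/
theorem bounded_of_pow {f : ℍ → ℂ} {n : ℕ} (hn : n ≠ 0)
    (hb : IsBoundedAtImInfty (fun τ => f τ ^ n)) : IsBoundedAtImInfty f := by
  rw [isBoundedAtImInfty_iff] at hb ⊢
  obtain ⟨M, A, h⟩ := hb
  refine ⟨max M 1, A, fun z hz => ?_⟩
  have h1 := h z hz
  rw [norm_pow] at h1
  by_contra hcon
  push Not at hcon
  have h2 : 1 < ‖f z‖ := lt_of_le_of_lt (le_max_right _ _) hcon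
  have h3 : M < ‖f z‖ := lt_of_le_of_lt (le_max_left _ _) hcon
  have h4 : ‖f z‖ ≤ ‖f z‖ ^ n := le_self_pow₀ h2.le hn
  linarith

/-- **Roots**: a holomorphic periodic function, a power of which has a Laurent expansion. -/
theorem hasLaurent_of_pow {h : ℝ} (hh : 0 < h) {f : ℍ → ℂ} (hf : MDiff f)
    (hper : Periodic (f ∘ ofComplex) h) {n : ℕ} (hn : n ≠ 0) {x : LaurentSeries ℂ}
    (hx : HasLaurent h (fun τ => f τ ^ n) x) : ∃ y, HasLaurent h f y := by
  obtain ⟨m, P, -, h1⟩ := hx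
  have hb1 := h1.bounded hh
  set g : ℍ → ℂ := fun τ => qParam h τ ^ m * f τ with hg
  have hb : IsBoundedAtImInfty g := by
    apply bounded_of_pow hn
    have h2 : (fun τ => g τ ^ n) = (fun τ : ℍ => (qParam h τ ^ m) ^ (n - 1)) *
        fun τ : ℍ => qParam h τ ^ m * f τ ^ n := by
      funext τ
      obtain ⟨k, rfl⟩ := Nat.exists_eq_succ_of_ne_zero hn
      simp only [hg, Pi.mul_apply, Nat.succ_eq_add_one, Nat.add_sub_cancel]
      ring
    rw [h2]
    have h3 : IsBoundedAtImInfty (fun τ : ℍ => (qParam h τ ^ m) ^ (n - 1)) := by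
      have h4 : (fun τ : ℍ => (qParam h τ ^ m) ^ (n - 1)) = fun τ : ℍ => qParam h τ ^ (m * (n - 1)) := by
        funext τ
        rw [pow_mul]
      rw [h4]
      exact (HasQExp.X_pow (h := h) (m * (n - 1))).bounded hh
    exact h3.mul hb1
  have hhol : MDiff g := (mdiff_pow (mdiff_qParam h) m).mul hf
  have hperg : Periodic (g ∘ ofComplex) h := by
    intro w
    have e1 := (periodic_qParam_comp hh) w
    have e2 := hper w
    simp only [comp_apply] at e1 e2
    simp only [hg, comp_apply]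
    rw [e1, e2]
  have hq : HasQExp h g (qExpansion h g) := by
    intro τ
    simpa [smul_eq_mul] using hasSum_qExpansion hh hperg hhol hb τ
  refine ⟨HahnSeries.single (-(m : ℤ)) 1 * HahnSeries.ofPowerSeries ℤ ℂ (qExpansion h g), m,
    qExpansion h g, ?_, hq⟩
  rw [← mul_assoc, HahnSeries.single_mul_single]
  simp

/-- periodicity on `ℍ` gives periodicity of the extension -/
theorem periodic_of_vadd {h : ℝ} {f : ℍ → ℂ} (hf : ∀ τ : ℍ, f (h +ᵥ τ) = f τ) :
    Periodic (f ∘ ofComplex) h := by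
  intro w
  by_cases hw : 0 < w.im
  · have h1 : 0 < (w + h).im := by simpa using hw
    simp only [comp_apply, ofComplex_apply_of_im_pos h1, ofComplex_apply_of_im_pos hw]
    have h2 := hf ⟨w, hw⟩
    rw [← h2]
    congr 1
    apply UpperHalfPlane.ext
    show w + h = ((h +ᵥ (⟨w, hw⟩ : ℍ) : ℍ) : ℂ)
    rw [UpperHalfPlane.coe_vadd]
    exact add_comm _ _
  · have h1 : (w + h).im ≤ 0 := by simpa using hw
    have h2 : w.im ≤ 0 := by simpa using hw
    simp [ofComplex_apply_of_im_nonpos h1, ofComplex_apply_of_im_nonpos h2]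

/-- `T ^ N` is translation by `N` -/
theorem T_pow_smul (N : ℕ) (τ : ℍ) : (ModularGroup.T ^ N) • τ = ((N : ℝ) +ᵥ τ) := by
  have h1 := UpperHalfPlane.modular_T_zpow_smul τ (N : ℤ)
  rw [zpow_natCast] at h1
  rw [h1]
  norm_num

theorem mem_gamma0_conj (N : ℕ) (γ : SL(2, ℤ)) :
    γ * ModularGroup.T ^ N * γ⁻¹ ∈ CongruenceSubgroup.Gamma0 N := by
  rw [CongruenceSubgroup.Gamma0_mem]
  have hT : ((ModularGroup.T ^ N : SL(2, ℤ)) : Matrix (Fin 2) (Fin 2) ℤ) = !![1, (N : ℤ); 0, 1] := by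
    have := ModularGroup.coe_T_zpow (N : ℤ)
    rwa [zpow_natCast] at this
  have hdet := Fermat.Agent.JInv.det_eq γ
  have h1 : (γ * ModularGroup.T ^ N * γ⁻¹) 1 0 = -(N : ℤ) * (γ 1 0) ^ 2 := by
    rw [Matrix.SpecialLinearGroup.coe_mul, Matrix.SpecialLinearGroup.coe_mul, hT,
      Matrix.SpecialLinearGroup.coe_inv, Matrix.adjugate_fin_two]
    simp [Matrix.mul_apply, Fin.sum_univ_two]
    ring
  rw [h1]
  push_cast
  simp

/-- **Roots of modular functions** -/
theorem isAn_of_pow {N : ℕ} [NeZero N] {f : ℍ → ℂ} (hf : MDiff f)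
    (hinv : ∀ γ ∈ CongruenceSubgroup.Gamma0 N, ∀ τ, f (γ • τ) = f τ) {n : ℕ} (hn : n ≠ 0)
    (h : IsAn N (fun τ => f τ ^ n)) : IsAn N f := by
  have hN : (0 : ℝ) < N := by exact_mod_cast Nat.pos_of_ne_zero (NeZero.ne N)
  refine ⟨hf, fun γ => ?_, hinv⟩
  obtain ⟨x, hx⟩ := h.exp γ
  refine hasLaurent_of_pow hN (f := fun τ => f (γ • τ)) ?_ ?_ hn hx
  · exact (compHolo γ ⟨f, hf⟩).2
  · apply periodic_of_vadd
    intro τ
    rw [← T_pow_smul, ← mul_smul]
    have h1 := hinv _ (mem_gamma0_conj N γ) (γ • τ)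
    rw [← mul_smul] at h1
    have h2 : γ * ModularGroup.T ^ N * γ⁻¹ * γ = γ * ModularGroup.T ^ N := by group
    rwa [h2] at h1

/-- inverses of functions with a Laurent expansion -/
theorem hasLaurent_inv {h : ℝ} (hh : 0 < h) {f : ℍ → ℂ} (hf : MDiff f) (hne : ∀ τ, f τ ≠ 0)
    {x : LaurentSeries ℂ} (hx : HasLaurent h f x) : ∃ y, HasLaurent h (fun τ => (f τ)⁻¹) y := by
  obtain ⟨m, P, -, h1⟩ := hx
  have hP : P ≠ 0 := by
    rintro rfl
    have h2 := h1 UpperHalfPlane.I
    have h3 : HasSum (fun k : ℕ => (0 : PowerSeries ℂ).coeff k * qParam h UpperHalfPlane.I ^ k) 0 := by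
      simp only [map_zero, zero_mul]
      exact hasSum_zero
    have h4 := h2.unique h3
    exact (mul_ne_zero (pow_ne_zero _ (Periodic.qParam_ne_zero _)) (hne _)) h4
  -- remove the zeros at infinity
  set k := P.order.toNat with hk
  obtain ⟨Q, hQ⟩ : (PowerSeries.X : PowerSeries ℂ) ^ k ∣ P := PowerSeries.X_pow_order_dvd
  have hQ0 : Q.coeff 0 ≠ 0 := by
    have h2 : P.coeff k ≠ 0 := PowerSeries.coeff_order hP
    have h3 : P.coeff k = Q.coeff 0 := by
      conv_lhs => rw [hQ]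
      have := PowerSeries.coeff_X_pow_mul Q k 0
      rwa [zero_add] at this
    rwa [h3] at h2
  set g : ℍ → ℂ := fun τ => qParam h τ ^ m * f τ * (qParam h τ ^ k)⁻¹ with hg
  have hgQ : HasQExp h g Q := by
    intro τ
    have hq : qParam h (τ : ℂ) ≠ 0 := qParam_ne_zero' h τ
    have h2 := (h1 τ).mul_right ((qParam h τ ^ k)⁻¹)
    have h3 : Injective (fun n : ℕ => n + k) := fun a b hab => Nat.add_right_cancel hab
    rw [← h3.hasSum_iff] at h2
    · refine h2.congr_fun ?_ |> fun h => h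
      intro n
      simp only [comp_apply]
      rw [hQ, add_comm n k, PowerSeries.coeff_X_pow_mul', if_pos (Nat.le_add_right k n),
        Nat.add_sub_cancel_left, pow_add]
      field_simp
    · intro n hn
      have hlt : n < k := by
        by_contra hcon
        push Not at hcon
        exact hn ⟨n - k, Nat.sub_add_cancel hcon⟩
      rw [hQ, PowerSeries.coeff_X_pow_mul', if_neg (by omega), zero_mul, zero_mul]
  have hhol : MDiff g := by
    have h2 : MDiff (fun τ : ℍ => (qParam h τ ^ k)⁻¹) :=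
      Fermat.Agent.MzCusp.mdiff_inv (mdiff_pow (mdiff_qParam h) k)
        (fun τ => pow_ne_zero _ (qParam_ne_zero' h τ))
    exact ((mdiff_pow (mdiff_qParam h) m).mul hf).mul h2
  have hgne : ∀ τ, g τ ≠ 0 := fun τ => mul_ne_zero (mul_ne_zero
    (pow_ne_zero _ (qParam_ne_zero' h τ)) (hne τ)) (inv_ne_zero (pow_ne_zero _ (qParam_ne_zero' h τ)))
  have h5 := hgQ.inv hh hhol hgne hQ0
  -- back to `f`
  have h6 := (HasQExp.X_pow (h := h) m).mul h5
  refine ⟨HahnSeries.single (-(k : ℤ)) 1 *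
    HahnSeries.ofPowerSeries ℤ ℂ (PowerSeries.X ^ m * Q⁻¹), k, PowerSeries.X ^ m * Q⁻¹, ?_, ?_⟩
  · rw [← mul_assoc, HahnSeries.single_mul_single]
    simp
  · convert h6 using 1
    funext τ
    have hq : qParam h (τ : ℂ) ≠ 0 := qParam_ne_zero' h τ
    have hf0 := hne τ
    simp only [Pi.mul_apply, hg]
    field_simp

/-- **Inverses of nowhere vanishing modular functions** -/
theorem isAn_inv {N : ℕ} [NeZero N] {f : ℍ → ℂ} (hf : IsAn N f) (hne : ∀ τ, f τ ≠ 0) :
    IsAn N (fun τ => (f τ)⁻¹) := by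
  have hN : (0 : ℝ) < N := by exact_mod_cast Nat.pos_of_ne_zero (NeZero.ne N)
  refine ⟨Fermat.Agent.MzCusp.mdiff_inv hf.hol hne, fun γ => ?_, fun γ hγ τ => by
    rw [hf.inv γ hγ τ]⟩
  obtain ⟨x, hx⟩ := hf.exp γ
  exact hasLaurent_inv hN (f := fun τ => f (γ • τ)) (compHolo γ ⟨f, hf.hol⟩).2 (fun τ => hne _) hx

theorem isAn_mul {N : ℕ} {f g : ℍ → ℂ} (hf : IsAn N f) (hg : IsAn N g) :
    IsAn N (fun τ => f τ * g τ) := (AnFun N).mul_mem hf hg

theorem isAn_pow {N : ℕ} {f : ℍ → ℂ} (hf : IsAn N f) (n : ℕ) :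
    IsAn N (fun τ => f τ ^ n) := (AnFun N).pow_mem hf n

end Fermat.Agent.LU1

end
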