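import Fermat.Agent.LU1.AnPow
import Fermat.Agent.LU1.Series
import Fermat.Agent.MzCusp.Unit

/-!
# The `q`-expansion of the eta quotient `η(2τ)²⁰/(η(τ)⁸ η(4τ)⁸)`
-/

set_option autoImplicit false

noncomputable section

open UpperHalfPlane Function ModularCurve Filter ModularForm
open scoped Manifold MatrixGroups Topology ModularForm

namespace Fermat.Agent.LU1

open Function.Periodic (qParam)
open Fermat.Agent.X0Places Fermat.Agent.MzCusp

/-- the Euler product `∏ (1 - qⁿ)` as a function on the upper half plane -/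
def eFn (τ : ℍ) : ℂ := ∏' n : ℕ, (1 - eta_q n τ)

theorem eFn_ne_zero (τ : ℍ) : eFn τ ≠ 0 := eta_tprod_ne_zero τ.2

theorem eFn_eq (τ : ℍ) : eFn τ = ∏' n : ℕ, (1 - qParam 1 τ ^ (n + 1)) := by
  have h : ∀ n : ℕ, eta_q n (τ : ℂ) = qParam 1 τ ^ (n + 1) := fun n => rfl
  simp only [eFn, h]

theorem eta_eq (τ : ℍ) : η τ = qParam 24 τ * eFn τ := rfl

theorem mdiff_eFn : MDiff eFn := by
  rw [mdifferentiable_iff]
  intro z hz
  have h1 := (differentiableAt_eta_tprod (z := z) hz)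
  apply DifferentiableAt.differentiableWithinAt
  refine h1.congr_of_eventuallyEq ?_
  filter_upwards [isOpen_upperHalfPlaneSet.mem_nhds hz] with w hw
  show eFn (ofComplex w) = _
  rw [eFn, ofComplex_apply_of_im_pos hw]

theorem hasQExp_eFn : HasQExp 1 eFn (etaProd.map (Int.castRingHom ℂ)) := by
  intro τ
  have hq : qParam 1 τ ∈ Metric.ball (0 : ℂ) 1 := by
    rw [mem_ball_zero_iff]
    exact_mod_cast norm_qParam_lt_one 1 τ
  have h1 := Complex.hasSum_taylorSeries_on_ball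
    (differentiableOn_tprod_one_sub_pow) hq
  rw [eFn_eq]
  refine h1.congr_fun ?_ |> fun h => h
  intro m
  rw [← Fermat.Agent.ModPoly.taylorAtZero_eulerProd, Fermat.Agent.ModPoly.coeff_taylorAtZero,
    sub_zero, smul_eq_mul, smul_eq_mul]
  ring

theorem hasLaurent_eFn : HasLaurent 1 eFn (etaL ℂ) := HasLaurent.of_qExp hasQExp_eFn

theorem hasLaurent_eFn_inv : HasLaurent 1 (fun τ => (eFn τ)⁻¹) (etaInvL ℂ) := by
  obtain ⟨y, hy⟩ := hasLaurent_inv one_pos mdiff_eFn eFn_ne_zero hasLaurent_eFn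
  have h1 := hasLaurent_eFn.mul hy
  have h2 : (eFn * fun τ => (eFn τ)⁻¹) = fun _ => (1 : ℂ) := by
    funext τ
    exact mul_inv_cancel₀ (eFn_ne_zero τ)
  rw [h2] at h1
  have h3 := h1.unique one_pos (HasLaurent.const 1)
  rw [map_one] at h3
  have h7 : y = etaInvL ℂ :=
    mul_left_cancel₀ (etaL_ne_zero ℂ) (h3.trans (etaL_mul_inv ℂ).symm)
  rw [h7] at hy
  exact hy

/-- powers of Laurent series over an abstract commutative ring -/
def powL (R : Type*) [CommRing R] (x : LaurentSeries R) (n : ℕ) : LaurentSeries R := x ^ n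

theorem powL_zero (R : Type*) [CommRing R] (x : LaurentSeries R) : powL R x 0 = 1 := pow_zero x

theorem powL_succ (R : Type*) [CommRing R] (x : LaurentSeries R) (n : ℕ) :
    powL R x (n + 1) = powL R x n * x := pow_succ x n

theorem gL_eq_powL (R : Type*) [CommRing R] : gL R =
    powL R (qExpand R 2 (etaL R)) 20 * powL R (etaInvL R) 8 *
      powL R (qExpand R 4 (etaInvL R)) 8 := by
  unfold gL powL
  rfl

theorem hasLaurent_powL {h : ℝ} {f : ℍ → ℂ} {x : LaurentSeries ℂ} (hf : HasLaurent h f x)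
    (n : ℕ) : HasLaurent h (fun τ => f τ ^ n) (powL ℂ x n) := by
  induction n with
  | zero =>
    rw [powL_zero]
    simpa using HasLaurent.const (h := h) 1
  | succ n ih =>
    rw [powL_succ]
    have h1 := ih.mul hf
    have h2 : ((fun τ => f τ ^ n) * f) = fun τ => f τ ^ (n + 1) := by
      funext τ
      exact (pow_succ _ _).symm
    rwa [h2] at h1

theorem hasLaurent_scaleH {f : ℍ → ℂ} {x : LaurentSeries ℂ} (hf : HasLaurent 1 f x) (p : ℕ)
    [NeZero p] (hp : 0 < p) : HasLaurent 1 (fun τ => f (scaleH p hp τ)) (qExpand ℂ p x) := by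
  have h1 := hf.subst (h' := 1) (scaleH p hp) 1 p (by
    intro τ
    rw [Units.val_one, one_mul]
    simp only [qParam, coe_scaleH]
    rw [← Complex.exp_nat_mul]
    congr 1
    push_cast
    field_simp)
  rw [Fermat.Agent.ModPoly.twist_one] at h1
  exact h1

/-- `G = e(2τ)²⁰/(e(τ)⁸ e(4τ)⁸)` -/
def gE (τ : ℍ) : ℂ :=
  eFn (scaleH 2 (by norm_num) τ) ^ 20 * (eFn τ)⁻¹ ^ 8 * (eFn (scaleH 4 (by norm_num) τ))⁻¹ ^ 8

theorem hasLaurent_gE : HasLaurent 1 gE (gL ℂ) := by
  have h2 := hasLaurent_powL (hasLaurent_scaleH hasLaurent_eFn 2 (by norm_num)) 20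
  have h1 := hasLaurent_powL hasLaurent_eFn_inv 8
  have h4 := hasLaurent_powL (hasLaurent_scaleH hasLaurent_eFn_inv 4 (by norm_num)) 8
  rw [gL_eq_powL]
  exact (h2.mul h1).mul h4

theorem eta_scaleH (p : ℕ) (hp : 0 < p) (τ : ℍ) :
    η ((p : ℂ) * (τ : ℂ)) = qParam 24 τ ^ p * eFn (scaleH p hp τ) := by
  have h := eta_eq (scaleH p hp τ)
  rw [coe_scaleH] at h
  rw [h]
  congr 1
  simp only [qParam, ← Complex.exp_nat_mul]
  congr 1
  ring

theorem mdiff_eFn_scaleH (p : ℕ) (hp : 0 < p) : MDiff (fun τ => eFn (scaleH p hp τ)) :=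
  mdiff_affH p 1 0 hp one_pos mdiff_eFn

/-- the eta quotient -/
theorem gE_eq (τ : ℍ) : gE τ = η (2 * (τ : ℂ)) ^ 20 / (η τ ^ 8 * η (4 * (τ : ℂ)) ^ 8) := by
  have e2 := eta_scaleH 2 (by norm_num) τ
  have e4 := eta_scaleH 4 (by norm_num) τ
  rw [Nat.cast_ofNat] at e2 e4
  rw [gE, e2, e4, eta_eq]
  have hq : qParam 24 (τ : ℂ) ≠ 0 := Complex.exp_ne_zero _
  have h1 := eFn_ne_zero τ
  have h4 := eFn_ne_zero (scaleH 4 (by norm_num) τ)
  generalize eFn τ = a at *
  generalize eFn (scaleH 4 (by norm_num) τ) = b at *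
  generalize eFn (scaleH 2 (by norm_num) τ) = c at *
  generalize qParam 24 (τ : ℂ) = q at *
  field_simp

theorem mdiff_gE : MDiff gE := by
  have h2 := (mdiff_eFn_scaleH 2 (by norm_num)).pow 20
  have h1 := (mdiff_inv mdiff_eFn eFn_ne_zero).pow 8
  have h4 := (mdiff_inv (mdiff_eFn_scaleH 4 (by norm_num)) (fun τ => eFn_ne_zero _)).pow 8
  exact (h2.mul h1).mul h4

/-- `G⁶ Δ² Δ(4τ)² = Δ(2τ)⁵` -/
theorem gE_pow (τ : ℍ) :
    gE τ ^ 6 * discriminant τ ^ 2 * discriminant (scaleH 4 (by norm_num) τ) ^ 2 =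
      discriminant (scaleH 2 (by norm_num) τ) ^ 5 := by
  have d1 : discriminant τ = η τ ^ 24 := rfl
  have d2 : discriminant (scaleH 2 (by norm_num) τ) = η (2 * (τ : ℂ)) ^ 24 := by
    rw [discriminant, coe_scaleH]
    norm_num
  have d4 : discriminant (scaleH 4 (by norm_num) τ) = η (4 * (τ : ℂ)) ^ 24 := by
    rw [discriminant, coe_scaleH]
    norm_num
  have n1 : η τ ≠ 0 := eta_ne_zero τ.2
  have n4 : η (4 * (τ : ℂ)) ≠ 0 := by
    have := eta_ne_zero (scaleH 4 (by norm_num) τ).2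
    rw [coe_scaleH] at this
    exact_mod_cast this
  rw [gE_eq, d1, d2, d4]
  generalize η τ = a at *
  generalize η (2 * (τ : ℂ)) = b at *
  generalize η (4 * (τ : ℂ)) = c at *
  field_simp

end Fermat.Agent.LU1

end
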