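import Mathlib

set_option autoImplicit false

/-!
# `Γ₀(4)` is generated by `T`, `S T⁴ S⁻¹` and `-1`
-/

open Matrix ModularGroup CongruenceSubgroup
open scoped MatrixGroups

namespace Fermat.Agent.LU1

theorem exists_reduce (a m : ℤ) (hm : m ≠ 0) : ∃ n : ℤ, 2 * |a + m * n| ≤ |m| := by
  have hpos : 0 < |m| := abs_pos.2 hm
  have key : ∃ n : ℤ, 2 * |a + |m| * n| ≤ |m| := by
    generalize |m| = l at hpos
    refine ⟨-((2 * a + l) / (2 * l)), ?_⟩
    have h2 := Int.emod_nonneg (2 * a + l) (show (2 * l) ≠ 0 by positivity)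
    have h4 := Int.emod_lt_of_pos (2 * a + l) (show (0 : ℤ) < 2 * l by positivity)
    have h3 := Int.emod_add_mul_ediv (2 * a + l) (2 * l)
    generalize (2 * a + l) / (2 * l) = q at *
    generalize (2 * a + l) % (2 * l) = r at *
    rcases abs_cases (a + l * -q) with ⟨h, -⟩ | ⟨h, -⟩ <;> rw [h] <;> linarith
  obtain ⟨n, hn⟩ := key
  rcases abs_choice m with h | h
  · exact ⟨n, by rwa [h] at hn ⊢⟩
  · refine ⟨-n, ?_⟩
    rw [mul_neg, ← neg_mul, ← h]
    exact hn

theorem conj_T_pow (n : ℤ) : ((S * T ^ n * S⁻¹ : SL(2, ℤ)) : Matrix (Fin 2) (Fin 2) ℤ) =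
    !![1, 0; -n, 1] := by
  rw [Matrix.SpecialLinearGroup.coe_mul, Matrix.SpecialLinearGroup.coe_mul, coe_T_zpow,
    Matrix.SpecialLinearGroup.coe_inv, coe_S]
  simp [Matrix.adjugate_fin_two_of]

theorem mem_of_c_eq_zero {H : Subgroup SL(2, ℤ)} (hT : T ∈ H) (hneg : -1 ∈ H) {g : SL(2, ℤ)}
    (hc : g 1 0 = 0) : g ∈ H := by
  have hdet := g.det_coe
  rw [Matrix.det_fin_two] at hdet
  rw [show (g : Matrix (Fin 2) (Fin 2) ℤ) 1 0 = 0 from hc, mul_zero, sub_zero] at hdet
  rcases Int.mul_eq_one_iff_eq_one_or_neg_one.1 hdet with ⟨h0, h1⟩ | ⟨h0, h1⟩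
  · have : g = T ^ (g 0 1) := by
      ext i j
      rw [coe_T_zpow]
      fin_cases i <;> fin_cases j
      · exact h0
      · rfl
      · exact hc
      · exact h1
    rw [this]
    exact H.zpow_mem hT _
  · have : g = -1 * T ^ (-(g 0 1)) := by
      ext i j
      rw [neg_one_mul, Matrix.SpecialLinearGroup.coe_neg, coe_T_zpow]
      fin_cases i <;> fin_cases j
      · exact h0
      · simp
      · simpa using hc
      · exact h1
    rw [this]
    exact H.mul_mem hneg (H.zpow_mem hT _)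

/-- `Γ₀(4)` is generated by `T`, `S T⁴ S⁻¹` and `-1` -/
theorem gamma0_four_le {H : Subgroup SL(2, ℤ)} (hT : T ∈ H) (hA : S * T ^ (4 : ℤ) * S⁻¹ ∈ H)
    (hneg : -1 ∈ H) : Gamma0 4 ≤ H := by
  have hA' : ∀ n : ℤ, S * T ^ (4 * n) * S⁻¹ ∈ H := by
    intro n
    have h := H.zpow_mem hA n
    rwa [conj_zpow, ← _root_.zpow_mul] at h
  have main : ∀ (n : ℕ) (g : SL(2, ℤ)), (4 : ℤ) ∣ g 1 0 → (g 1 0).natAbs = n → g ∈ H := by
    intro n
    induction n using Nat.strong_induction_on with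
    | _ n ih =>
    intro g hg hn
    rcases eq_or_ne (g 1 0) 0 with hc | hc
    · exact mem_of_c_eq_zero hT hneg hc
    · obtain ⟨u, hu⟩ := exists_reduce (g 1 1) (g 1 0) hc
      have hdet := (g * T ^ u).det_coe
      have e10 : (g * T ^ u) 1 0 = g 1 0 := by
        rw [Matrix.SpecialLinearGroup.coe_mul, coe_T_zpow]
        simp [Matrix.mul_apply, Fin.sum_univ_two]
      have e11 : (g * T ^ u) 1 1 = g 1 1 + g 1 0 * u := by
        rw [Matrix.SpecialLinearGroup.coe_mul, coe_T_zpow]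
        simp [Matrix.mul_apply, Fin.sum_univ_two]
        ring
      rw [Matrix.det_fin_two, e10, e11] at hdet
      rw [← e11] at hu hdet
      set g1 := g * T ^ u with hg1
      obtain ⟨c', hc'⟩ := hg
      -- `d` is odd
      have hodd : ¬ (2 : ℤ) ∣ g1 1 1 := by
        rintro ⟨w, hw⟩
        rw [hw, hc'] at hdet
        have : (2 : ℤ) ∣ 1 := ⟨g1 0 0 * w - g1 0 1 * (2 * c'), by linear_combination -hdet⟩
        norm_num at this
      have hd0 : g1 1 1 ≠ 0 := fun h => hodd (by rw [h]; exact dvd_zero _)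
      have hlt : 2 * |g1 1 1| < |g 1 0| := by
        refine lt_of_le_of_ne hu fun h => hodd ?_
        rw [hc', abs_mul] at h
        rw [← dvd_abs]
        refine ⟨|c'|, ?_⟩
        have : |(4 : ℤ)| = 4 := by norm_num
        rw [this] at h
        linarith
      obtain ⟨v, hv⟩ := exists_reduce (g 1 0) (4 * g1 1 1) (by
        intro h
        exact hd0 ((mul_eq_zero.1 h).resolve_left (by norm_num)))
      set g2 := g1 * (S * T ^ (4 * (-v)) * S⁻¹) with hg2
      have f10 : g2 1 0 = g 1 0 + 4 * g1 1 1 * v := by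
        rw [hg2, Matrix.SpecialLinearGroup.coe_mul, conj_T_pow]
        simp only [Matrix.mul_apply, Fin.sum_univ_two]
        rw [show (g1 : Matrix (Fin 2) (Fin 2) ℤ) 1 0 = g 1 0 from e10]
        simp
        ring
      have hlt2 : |g2 1 0| < |g 1 0| := by
        rw [f10]
        have h4 : |4 * g1 1 1| = 4 * |g1 1 1| := by
          rw [abs_mul]; norm_num
        rw [h4] at hv
        linarith
      have hmem : g2 ∈ H := by
        refine ih (g2 1 0).natAbs ?_ g2 ⟨c' + g1 1 1 * v, by rw [f10, hc']; ring⟩ rfl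
        rw [← hn]
        zify
        exact hlt2
      have : g = g2 * (S * T ^ (4 * (-v)) * S⁻¹)⁻¹ * (T ^ u)⁻¹ := by
        rw [hg2, hg1]
        group
      rw [this]
      exact H.mul_mem (H.mul_mem hmem (H.inv_mem (hA' _))) (H.inv_mem (H.zpow_mem hT _))
  intro g hg
  rw [Gamma0_mem, ZMod.intCast_zmod_eq_zero_iff_dvd] at hg
  exact main _ g (by exact_mod_cast hg) rfl

end Fermat.Agent.LU1
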