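import Fermat.Agent.LU1.Gen4
import Fermat.Agent.MzCusp.DeltaQuot

set_option autoImplicit false

/-!
# The form `G(τ) = η(2τ)²⁰/(η(τ)⁸ η(4τ)⁸)` of weight two on `Γ₀(4)`
-/

noncomputable section

open UpperHalfPlane Function ModularForm
open scoped Manifold MatrixGroups ModularForm

namespace Fermat.Agent.LU1

open Fermat.Agent.X0Places Fermat.Agent.MzCusp
open Function.Periodic (qParam)

/-- roots of unity -/
def zt (n : ℕ) : ℂ := Complex.exp (2 * Real.pi * Complex.I * n / 24)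

theorem zt_pow (a n : ℕ) : zt a ^ n = zt (a * n) := by
  rw [zt, zt, ← Complex.exp_nat_mul]
  congr 1
  push_cast
  ring

theorem zt_add (a b : ℕ) : zt a * zt b = zt (a + b) := by
  rw [zt, zt, zt, ← Complex.exp_add]
  congr 1
  push_cast
  ring

theorem zt_ne_zero (a : ℕ) : zt a ≠ 0 := Complex.exp_ne_zero _

theorem eta_add_nat (z : ℂ) (n : ℕ) : ModularForm.eta (z + n) = zt n * ModularForm.eta z := by
  have h1 : qParam 1 (z + n) = qParam 1 z := by
    have h3 : (Complex.exp (2 * Real.pi * Complex.I)) ^ n = 1 := by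
      rw [Complex.exp_two_pi_mul_I, one_pow]
    rw [← Complex.exp_nat_mul] at h3
    rw [qParam, qParam]
    rw [show 2 * (Real.pi : ℂ) * Complex.I * (z + n) / ((1 : ℝ) : ℂ) =
      2 * Real.pi * Complex.I * z / ((1 : ℝ) : ℂ) + n * (2 * Real.pi * Complex.I) by
        push_cast; ring, Complex.exp_add, h3, mul_one]
  have h2 : qParam 24 (z + n) = zt n * qParam 24 z := by
    rw [zt, qParam, qParam, ← Complex.exp_add]
    congr 1
    push_cast
    ring
  rw [ModularForm.eta, ModularForm.eta, h2, mul_assoc]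
  congr 2
  simp only [ModularForm.eta_q, h1]

theorem sqrt_pow_two (z : ℂ) : Complex.sqrt z ^ 2 = z := by
  rw [Complex.sqrt]
  exact_mod_cast Complex.cpow_nat_inv_pow z two_ne_zero

/-- `η(-1/z)⁴ = - z² η(z)⁴` -/
theorem eta_S_pow_four {z : ℂ} (hz : 0 < z.im) :
    ModularForm.eta (-1 / z) ^ 4 = -z ^ 2 * ModularForm.eta z ^ 4 := by
  have h := ModularForm.eta_comp_eq_csqrt_I_inv (x := z) hz
  simp only [comp_apply, Pi.smul_apply, Pi.mul_apply, smul_eq_mul] at h
  rw [h]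
  have h1 := sqrt_pow_two z
  have h2 := sqrt_pow_two Complex.I
  have h3 : (Complex.sqrt Complex.I)⁻¹ ^ 4 = -1 := by
    rw [inv_pow, show (4 : ℕ) = 2 * 2 by norm_num, pow_mul, h2, Complex.I_sq]
    norm_num
  rw [mul_pow, mul_pow, h3, show Complex.sqrt z ^ 4 = z ^ 2 by
    rw [show (4 : ℕ) = 2 * 2 by norm_num, pow_mul, h1]]
  ring

theorem im_pos_S {z : ℂ} (hz : 0 < z.im) : 0 < (-1 / z).im := by
  have h : z ≠ 0 := by rintro rfl; simp at hz
  rw [neg_div, one_div, Complex.neg_im, Complex.inv_im, neg_div, neg_neg]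
  exact div_pos hz (Complex.normSq_pos.2 h)

/-- the function `G` on `ℂ` -/
def g0 (z : ℂ) : ℂ :=
  ModularForm.eta (2 * z) ^ 20 * (ModularForm.eta z ^ 8 * ModularForm.eta (4 * z) ^ 8)⁻¹

/-- the companion at the cusp `0` -/
def h0 (z : ℂ) : ℂ :=
  ModularForm.eta (z / 2) ^ 20 * (ModularForm.eta z ^ 8 * ModularForm.eta (z / 4) ^ 8)⁻¹

theorem g0_add_one (z : ℂ) : g0 (z + 1) = g0 z := by
  have h1 := eta_add_nat (2 * z) 2
  have h2 := eta_add_nat z 1
  have h3 := eta_add_nat (4 * z) 4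
  push_cast at h1 h2 h3
  rw [g0, g0, show 2 * (z + 1) = 2 * z + 2 by ring, show 4 * (z + 1) = 4 * z + 4 by ring, h1, h2,
    h3]
  simp only [mul_pow, zt_pow, mul_inv]
  have h4 := zt_ne_zero (1 * 8)
  have h5 := zt_ne_zero (4 * 8)
  have h6 : zt (2 * 20) = zt (1 * 8) * zt (4 * 8) := by rw [zt_add]
  rw [h6]
  field_simp

theorem h0_add_four (z : ℂ) : h0 (z + 4) = h0 z := by
  have h1 := eta_add_nat (z / 2) 2
  have h2 := eta_add_nat z 4
  have h3 := eta_add_nat (z / 4) 1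
  push_cast at h1 h2 h3
  rw [h0, h0, show (z + 4) / 2 = z / 2 + 2 by ring, show (z + 4) / 4 = z / 4 + 1 by ring, h1, h2,
    h3]
  simp only [mul_pow, zt_pow, mul_inv]
  have h4 := zt_ne_zero (4 * 8)
  have h5 := zt_ne_zero (1 * 8)
  have h6 : zt (2 * 20) = zt (4 * 8) * zt (1 * 8) := by rw [zt_add]
  rw [h6]
  field_simp

theorem g0_S {z : ℂ} (hz : 0 < z.im) : g0 (-1 / z) = -(z ^ 2 / 4) * h0 z := by
  have hz0 : z ≠ 0 := by rintro rfl; simp at hz
  have h1 := eta_S_pow_four (z := z / 2) (by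
    rw [show z / 2 = z / (2 : ℕ) by norm_num, Complex.div_natCast_im]; positivity)
  have h2 := eta_S_pow_four hz
  have h3 := eta_S_pow_four (z := z / 4) (by
    rw [show z / 4 = z / (4 : ℕ) by norm_num, Complex.div_natCast_im]; positivity)
  rw [show -1 / (z / 2) = 2 * (-1 / z) by field_simp] at h1
  rw [show -1 / (z / 4) = 4 * (-1 / z) by field_simp] at h3
  rw [g0, h0, show (20 : ℕ) = 4 * 5 by norm_num, show (8 : ℕ) = 4 * 2 by norm_num, pow_mul,
    pow_mul, pow_mul, h1, h2, h3]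
  have e1 : ModularForm.eta z ≠ 0 := ModularForm.eta_ne_zero hz
  have e2 : ModularForm.eta (z / 4) ≠ 0 := ModularForm.eta_ne_zero (by
    show 0 < (z / 4).im
    rw [show z / 4 = z / (4 : ℕ) by norm_num, Complex.div_natCast_im]; positivity)
  field_simp
  ring

theorem g0_A {z : ℂ} (hz : 0 < z.im) : g0 (-1 / (-1 / z + 4)) = (-4 * z + 1) ^ 2 * g0 z := by
  have hz0 : z ≠ 0 := by rintro rfl; simp at hz
  have hw := im_pos_S hz
  have hw4 : 0 < (-1 / z + 4).im := by
    simpa using hw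
  have h1 := g0_S hw4
  have h2 := g0_S hw
  rw [show -1 / (-1 / z) = z by field_simp] at h2
  rw [h1, h0_add_four, h2]
  field_simp
  ring

/-- the function `G` on the upper half plane -/
def gFn (τ : ℍ) : ℂ := g0 τ

theorem g0_ne_zero {z : ℂ} (hz : 0 < z.im) : g0 z ≠ 0 := by
  refine mul_ne_zero (pow_ne_zero _ (ModularForm.eta_ne_zero ?_)) (inv_ne_zero (mul_ne_zero
    (pow_ne_zero _ (ModularForm.eta_ne_zero hz)) (pow_ne_zero _ (ModularForm.eta_ne_zero ?_))))
  · show 0 < (2 * z).im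
    simpa using hz
  · show 0 < (4 * z).im
    simpa using hz

theorem gFn_ne_zero (τ : ℍ) : gFn τ ≠ 0 := g0_ne_zero τ.im_pos

theorem slash_iff (g : SL(2, ℤ)) : gFn ∣[(2 : ℤ)] g = gFn ↔
    ∀ τ : ℍ, gFn (g • τ) = ((g 1 0 : ℂ) * τ + g 1 1) ^ 2 * gFn τ := by
  constructor
  · intro h τ
    have h1 := congrFun h τ
    rw [SL_slash_apply, Fermat.Agent.JInv.denom_eq] at h1
    have h2 := denom_SL_ne_zero g τ
    rw [← h1, zpow_neg]
    have e2 : ((g 1 0 : ℂ) * τ + g 1 1) ^ (2 : ℤ) = ((g 1 0 : ℂ) * τ + g 1 1) ^ 2 := by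
      exact_mod_cast rfl
    rw [e2]
    field_simp
  · intro h
    ext τ
    rw [SL_slash_apply, Fermat.Agent.JInv.denom_eq, h τ]
    have h2 := denom_SL_ne_zero g τ
    have e2 : ((g 1 0 : ℂ) * τ + g 1 1) ^ (2 : ℤ) = ((g 1 0 : ℂ) * τ + g 1 1) ^ 2 := by
      exact_mod_cast rfl
    rw [zpow_neg, e2]
    field_simp

theorem slash_of_entries {g : SL(2, ℤ)} {a b c d : ℤ}
    (hg : (g : Matrix (Fin 2) (Fin 2) ℤ) = !![a, b; c, d])
    (h : ∀ z : ℂ, 0 < z.im → g0 ((a * z + b) / (c * z + d)) = (c * z + d) ^ 2 * g0 z) :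
    gFn ∣[(2 : ℤ)] g = gFn := by
  rw [slash_iff]
  intro τ
  have e00 : (g 0 0 : ℤ) = a := congrFun (congrFun hg 0) 0
  have e01 : (g 0 1 : ℤ) = b := congrFun (congrFun hg 0) 1
  have e10 : (g 1 0 : ℤ) = c := congrFun (congrFun hg 1) 0
  have e11 : (g 1 1 : ℤ) = d := congrFun (congrFun hg 1) 1
  rw [gFn, gFn, coe_SL_smul, e00, e01, e10, e11]
  exact h τ τ.im_pos

theorem slash_T : gFn ∣[(2 : ℤ)] ModularGroup.T = gFn := by
  refine slash_of_entries ModularGroup.coe_T fun z _ => ?_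
  push_cast
  rw [zero_mul, zero_add, div_one, one_mul, g0_add_one]
  ring

theorem slash_A : gFn ∣[(2 : ℤ)] (ModularGroup.S * ModularGroup.T ^ (4 : ℤ) * ModularGroup.S⁻¹) =
    gFn := by
  refine slash_of_entries (conj_T_pow 4) fun z hz => ?_
  have hz0 : z ≠ 0 := by rintro rfl; simp at hz
  have h1 := g0_A hz
  push_cast
  rw [← h1, one_mul, add_zero]
  congr 1
  have h2 : -4 * z + 1 ≠ 0 := by
    intro h
    have := congrArg Complex.im h
    simp at this
    exact hz.ne' this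
  have h3 : -1 / z + 4 ≠ 0 := by
    intro h
    apply h2
    field_simp at h
    linear_combination -h
  rw [div_eq_div_iff h2 h3, mul_add, mul_div_cancel₀ _ hz0]
  ring

theorem slash_neg : gFn ∣[(2 : ℤ)] (-1 : SL(2, ℤ)) = gFn := by
  refine slash_of_entries (a := -1) (b := 0) (c := 0) (d := -1) ?_ fun z _ => ?_
  · rw [Matrix.SpecialLinearGroup.coe_neg, Matrix.SpecialLinearGroup.coe_one]
    ext i j
    fin_cases i <;> fin_cases j <;> rfl
  · push_cast
    rw [show (-1 * z + 0) / (0 * z + -1) = z by simp]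
    ring

/-- `G` is a form of weight two on `Γ₀(4)` -/
theorem gFn_smul (g : SL(2, ℤ)) (hg : g ∈ CongruenceSubgroup.Gamma0 4) (τ : ℍ) :
    gFn (g • τ) = ((g 1 0 : ℂ) * τ + g 1 1) ^ 2 * gFn τ := by
  let H : Subgroup SL(2, ℤ) :=
    { carrier := {g | gFn ∣[(2 : ℤ)] g = gFn}
      mul_mem' := fun {a b} ha hb => by
        show gFn ∣[(2 : ℤ)] (a * b) = gFn
        rw [SlashAction.slash_mul]
        rw [show gFn ∣[(2 : ℤ)] a = gFn from ha]
        exact hb
      one_mem' := SlashAction.slash_one _ _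
      inv_mem' := fun {a} ha => by
        show gFn ∣[(2 : ℤ)] a⁻¹ = gFn
        have ha' : gFn ∣[(2 : ℤ)] a = gFn := ha
        conv_lhs => rw [← ha']
        rw [← SlashAction.slash_mul, mul_inv_cancel, SlashAction.slash_one] }
  have h := gamma0_four_le (H := H) slash_T slash_A slash_neg hg
  exact (slash_iff g).1 h τ

/-- `G⁶ Δ² Δ(4τ)² = Δ(2τ)⁵` -/
theorem gFn_pow (τ : ℍ) : gFn τ ^ 6 * discriminant τ ^ 2 *
    discriminant (scaleH 4 (by norm_num) τ) ^ 2 = discriminant (scaleH 2 (by norm_num) τ) ^ 5 := by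
  have e1 : ModularForm.eta τ ≠ 0 := ModularForm.eta_ne_zero τ.im_pos
  have e2 : ModularForm.eta (4 * τ) ≠ 0 := ModularForm.eta_ne_zero (by
    show 0 < (4 * (τ : ℂ)).im
    simpa using τ.im_pos)
  rw [gFn, g0, ModularForm.discriminant, ModularForm.discriminant, ModularForm.discriminant,
    coe_scaleH, coe_scaleH]
  push_cast
  generalize ModularForm.eta (4 * τ) = x at *
  generalize ModularForm.eta (2 * τ) = y at *
  generalize ModularForm.eta τ = w at *
  field_simp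

end Fermat.Agent.LU1

end
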