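import Fermat.Agent.LU1.VMem
import Fermat.Agent.LU1.EtaExp
import Fermat.Agent.LU1.Trans

/-!
# The unit `G(τ)/G(pτ)` lies in the function field of `X₀(4p)`
-/

set_option autoImplicit false

noncomputable section

open UpperHalfPlane Function ModularCurve Filter ModularForm
open scoped Manifold MatrixGroups Topology ModularForm

namespace Fermat.Agent.LU1

open Fermat.Agent.X0Places Fermat.Agent.MzCusp

theorem gFn_eq_gE : gFn = gE := by
  funext τ
  rw [gE_eq]
  rfl

theorem isG_gE : IsG gE := by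
  refine ⟨mdiff_gE, fun γ hγ τ => ?_, gE_pow, hasLaurent_gE⟩
  have h := gFn_smul γ hγ τ
  rw [gFn_eq_gE] at h
  exact h

/-- **The unit `G(τ)/G(pτ)` is in the function field of `X₀(4p)`.** -/
theorem vL_mem {L : Type*} [Field L] [Algebra ℚ L] [IsAlgClosed L] (ι : L →+* ℂ)
    (p : ℕ) [NeZero p] [NeZero (4 * p)] : vL L p ∈ modularFunctionFieldFullC L (4 * p) :=
  vL_mem_of isG_gE ι p

end Fermat.Agent.LU1

end
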