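import Fermat.Agent.LU1.AnPow
import Fermat.Agent.LU1.Series
import Fermat.Agent.MzCusp.Unit
import Fermat.Agent.LLu.WUnit

/-!
# `G(τ)/G(pτ)` is a modular function on `Γ₀(4p)`

Here `G` is a function of weight `2` on `Γ₀(4)` with `G⁶ Δ² Δ(4τ)² = Δ(2τ)⁵` (abstract form).
-/

set_option autoImplicit false

noncomputable section

open UpperHalfPlane Function ModularCurve Filter ModularForm
open scoped Manifold MatrixGroups Topology ModularForm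

namespace Fermat.Agent.LU1

open Function.Periodic (qParam)
open Fermat.Agent.X0Places Fermat.Agent.MzCusp

/-- a weight two function on `Γ₀(4)` whose sixth power is `Δ(2τ)⁵/(Δ(τ)² Δ(4τ)²)` -/
structure IsG (g : ℍ → ℂ) : Prop where
  hol : MDiff g
  smul : ∀ γ ∈ CongruenceSubgroup.Gamma0 4, ∀ τ : ℍ,
    g (γ • τ) = ((γ 1 0 : ℂ) * τ + γ 1 1) ^ 2 * g τ
  pow : ∀ τ : ℍ, g τ ^ 6 * discriminant τ ^ 2 * discriminant (scaleH 4 (by norm_num) τ) ^ 2 =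
    discriminant (scaleH 2 (by norm_num) τ) ^ 5
  exp : HasLaurent 1 g (gL ℂ)

variable {g : ℍ → ℂ}

theorem IsG.ne_zero (hg : IsG g) (τ : ℍ) : g τ ≠ 0 := by
  intro h
  have h1 := hg.pow τ
  rw [h, zero_pow (by norm_num), zero_mul, zero_mul] at h1
  exact (pow_ne_zero 5 (discriminant_ne_zero _)) h1.symm

/-- `γ ∈ Γ₀(4p)` gives `γ' ∈ Γ₀(4)` with `p(γτ) = γ'(pτ)` -/
theorem scaleH_gamma0_four (p : ℕ) (hp : 0 < p) (γ : SL(2, ℤ))
    (hγ : γ ∈ CongruenceSubgroup.Gamma0 (4 * p)) :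
    ∃ γ' ∈ CongruenceSubgroup.Gamma0 4, ∀ τ : ℍ, scaleH p hp (γ • τ) = γ' • scaleH p hp τ ∧
      (γ' 1 0 : ℂ) * (scaleH p hp τ : ℂ) + γ' 1 1 = (γ 1 0 : ℂ) * τ + γ 1 1 := by
  rw [CongruenceSubgroup.Gamma0_mem, ZMod.intCast_zmod_eq_zero_iff_dvd] at hγ
  obtain ⟨c', hc'⟩ := hγ
  push_cast at hc'
  have hdet := Fermat.Agent.JInv.det_eq γ
  refine ⟨mkSL (γ 0 0) (p * γ 0 1) (4 * c') (γ 1 1) (by rw [hc'] at hdet; linear_combination hdet),
    ?_, ?_⟩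
  · rw [CongruenceSubgroup.Gamma0_mem, mkSL_10, ZMod.intCast_zmod_eq_zero_iff_dvd]
    exact ⟨c', by push_cast; ring⟩
  intro τ
  have hc : (γ 1 0 : ℂ) = p * (4 * c') := by rw [hc']; push_cast; ring
  have h1 : ((4 * c' : ℤ) : ℂ) * ((p : ℂ) * τ) + γ 1 1 = (γ 1 0 : ℂ) * τ + γ 1 1 := by
    rw [hc]; push_cast; ring
  constructor
  · apply UpperHalfPlane.ext
    rw [coe_scaleH, coe_SL_smul, coe_SL_smul, coe_scaleH]
    simp only [mkSL_00, mkSL_01, mkSL_10, mkSL_11]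
    rw [h1]
    push_cast
    rw [← mul_div_assoc]
    congr 1
    ring
  · rw [coe_scaleH]
    simp only [mkSL_10, mkSL_11]
    exact h1

/-- `G(τ)/G(pτ)` -/
def vFn (g : ℍ → ℂ) (p : ℕ) (hp : 0 < p) : ℍ → ℂ := fun τ => g τ * (g (scaleH p hp τ))⁻¹

theorem vFn_ne_zero (hg : IsG g) (p : ℕ) (hp : 0 < p) (τ : ℍ) : vFn g p hp τ ≠ 0 :=
  mul_ne_zero (hg.ne_zero _) (inv_ne_zero (hg.ne_zero _))

theorem mdiff_vFn (hg : IsG g) (p : ℕ) (hp : 0 < p) : MDiff (vFn g p hp) := by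
  have h1 : MDiff (fun τ => (g τ)⁻¹) := mdiff_inv hg.hol (fun τ => hg.ne_zero τ)
  exact hg.hol.mul (mdiff_affH p 1 0 hp one_pos h1)

theorem vFn_inv (hg : IsG g) (p : ℕ) (hp : 0 < p) (γ : SL(2, ℤ))
    (hγ : γ ∈ CongruenceSubgroup.Gamma0 (4 * p)) (τ : ℍ) :
    vFn g p hp (γ • τ) = vFn g p hp τ := by
  obtain ⟨γ', hγ', h⟩ := scaleH_gamma0_four p hp γ hγ
  obtain ⟨h1, h2⟩ := h τ
  have h4 : γ ∈ CongruenceSubgroup.Gamma0 4 := by
    rw [CongruenceSubgroup.Gamma0_mem, ZMod.intCast_zmod_eq_zero_iff_dvd] at hγ ⊢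
    exact (Int.natCast_dvd_natCast.mpr (dvd_mul_right 4 p)).trans hγ
  have h3 := denom_SL_ne_zero γ τ
  have h5 := hg.ne_zero (scaleH p hp τ)
  rw [vFn, h1, hg.smul γ h4, hg.smul γ' hγ', h2, vFn]
  field_simp

theorem scaleH_scaleH (a b : ℕ) (ha : 0 < a) (hb : 0 < b) (τ : ℍ) :
    scaleH a ha (scaleH b hb τ) = scaleH (a * b) (Nat.mul_pos ha hb) τ := by
  apply UpperHalfPlane.ext
  rw [coe_scaleH, coe_scaleH, coe_scaleH]
  push_cast
  ring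

theorem disc_scaleH (d : ℕ) (hd : 0 < d) (τ : ℍ) :
    discriminant (scaleH d hd τ) = discriminant τ * (uFn d hd τ)⁻¹ := by
  have h1 := discriminant_ne_zero τ
  have h2 := discriminant_ne_zero (scaleH d hd τ)
  rw [uFn]
  field_simp

/-- the sixth power of `G(τ)/G(pτ)` -/
theorem vFn_pow (hg : IsG g) (p : ℕ) (hp : 0 < p) (τ : ℍ) :
    vFn g p hp τ ^ 6 = uFn (2 * p) (by omega) τ ^ 5 * (uFn 2 (by norm_num) τ)⁻¹ ^ 5 *
      (uFn p hp τ)⁻¹ ^ 2 * (uFn (4 * p) (by omega) τ)⁻¹ ^ 2 * uFn 4 (by norm_num) τ ^ 2 := by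
  have h1 := hg.pow τ
  have h2 := hg.pow (scaleH p hp τ)
  rw [scaleH_scaleH, scaleH_scaleH, disc_scaleH, disc_scaleH, disc_scaleH] at h2
  rw [disc_scaleH, disc_scaleH] at h1
  have a0 := discriminant_ne_zero τ
  have a1 := uFn_ne_zero p hp τ
  have a2 := uFn_ne_zero 2 (by norm_num) τ
  have a4 := uFn_ne_zero 4 (by norm_num) τ
  have b2 := uFn_ne_zero (2 * p) (by omega) τ
  have b4 := uFn_ne_zero (4 * p) (by omega) τ
  have g1 := hg.ne_zero τ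
  have g2 := hg.ne_zero (scaleH p hp τ)
  have e1 : g τ ^ 6 = discriminant τ * (uFn 4 (by norm_num) τ) ^ 2 *
      (uFn 2 (by norm_num) τ)⁻¹ ^ 5 := by
    field_simp at h1 ⊢
    linear_combination h1
  have e2 : g (scaleH p hp τ) ^ 6 = discriminant τ * (uFn p hp τ) ^ 2 *
      (uFn (4 * p) (by omega) τ) ^ 2 * (uFn (2 * p) (by omega) τ)⁻¹ ^ 5 := by
    field_simp at h2 ⊢
    linear_combination h2
  rw [vFn, mul_pow, inv_pow, e1, e2]
  field_simp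

theorem isAn_of_dvd {M N : ℕ} [NeZero M] [NeZero N] (h : M ∣ N) {f : ℍ → ℂ} (hf : IsAn M f) :
    IsAn N f := by
  obtain ⟨k, rfl⟩ := h
  have hk : NeZero k := ⟨by
    rintro rfl
    exact NeZero.ne (M * 0) (mul_zero M)⟩
  have := LLu.isAn_level k M hf
  rwa [mul_comm k M] at this

/-- **`G(τ)/G(pτ)` is a modular function on `Γ₀(4p)`** -/
theorem isAn_vFn (hg : IsG g) (p : ℕ) [NeZero p] (hp : 0 < p) : IsAn (4 * p) (vFn g p hp) := by
  have i2 : NeZero (2 * p) := ⟨by omega⟩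
  have i4 : NeZero (4 * p) := ⟨by omega⟩
  refine isAn_of_pow (mdiff_vFn hg p hp) (fun γ hγ τ => vFn_inv hg p hp γ hγ τ) (n := 6)
    (by norm_num) ?_
  have h1 : (fun τ => vFn g p hp τ ^ 6) = fun τ => uFn (2 * p) (by omega) τ ^ 5 *
      (uFn 2 (by norm_num) τ)⁻¹ ^ 5 * (uFn p hp τ)⁻¹ ^ 2 * (uFn (4 * p) (by omega) τ)⁻¹ ^ 2 *
        uFn 4 (by norm_num) τ ^ 2 := funext fun τ => vFn_pow hg p hp τ
  rw [h1]
  have k1 : IsAn (4 * p) (uFn (2 * p) (by omega)) :=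
    isAn_of_dvd ⟨2, by ring⟩ (isAn_uFn (2 * p) (by omega))
  have k2 : IsAn (4 * p) (uFn 2 (by norm_num)) :=
    isAn_of_dvd ⟨2 * p, by ring⟩ (isAn_uFn 2 (by norm_num))
  have k3 : IsAn (4 * p) (uFn p hp) := isAn_of_dvd ⟨4, by ring⟩ (isAn_uFn p hp)
  have k4 : IsAn (4 * p) (uFn (4 * p) (by omega)) := isAn_uFn (4 * p) (by omega)
  have k5 : IsAn (4 * p) (uFn 4 (by norm_num)) := isAn_of_dvd ⟨p, rfl⟩ (isAn_uFn 4 (by norm_num))
  have l1 := isAn_pow k1 5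
  have l2 := isAn_pow (isAn_inv k2 (uFn_ne_zero 2 (by norm_num))) 5
  have l3 := isAn_pow (isAn_inv k3 (uFn_ne_zero p hp)) 2
  have l4 := isAn_pow (isAn_inv k4 (uFn_ne_zero (4 * p) (by omega))) 2
  have l5 := isAn_pow k5 2
  exact isAn_mul (isAn_mul (isAn_mul (isAn_mul l1 l2) l3) l4) l5

/-- the expansion of `1/G` -/
theorem hasLaurent_gInv (hg : IsG g) : HasLaurent 1 (fun τ => (g τ)⁻¹) (gInvL ℂ) := by
  obtain ⟨y, hy⟩ := hasLaurent_inv one_pos hg.hol hg.ne_zero hg.exp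
  have h1 := hg.exp.mul hy
  have h2 : (g * fun τ => (g τ)⁻¹) = fun _ => (1 : ℂ) := by
    funext τ
    exact mul_inv_cancel₀ (hg.ne_zero τ)
  rw [h2] at h1
  have h3 := h1.unique one_pos (HasLaurent.const 1)
  rw [map_one] at h3
  have h4 := gL_mul_inv ℂ
  have h5 : gL ℂ ≠ 0 := left_ne_zero_of_mul_eq_one h4
  have h6 : gL ℂ * y = gL ℂ * gInvL ℂ := by rw [h4]; exact h3.symm ▸ rfl
  have h7 : y = gInvL ℂ := mul_left_cancel₀ h5 h6
  rw [h7] at hy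
  exact hy

/-- the expansion of `G(τ)/G(pτ)` -/
theorem hasLaurent_vFn (hg : IsG g) (p : ℕ) [NeZero p] (hp : 0 < p) :
    HasLaurent 1 (vFn g p hp) (vL ℂ p) := by
  have h1 := (hasLaurent_gInv hg).subst (h' := 1) (scaleH p hp) 1 p (by
    intro τ
    rw [Units.val_one, one_mul]
    simp only [qParam, coe_scaleH]
    rw [← Complex.exp_nat_mul]
    congr 1
    push_cast
    field_simp)
  rw [Fermat.Agent.ModPoly.twist_one] at h1
  exact hg.exp.mul h1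

theorem vL_mem_complex_of (hg : IsG g) (p : ℕ) [NeZero p] [NeZero (4 * p)] :
    vL ℂ p ∈ FF ℂ (4 * p) :=
  (isAn_vFn hg p (Nat.pos_of_ne_zero (NeZero.ne p))).mem_FF (4 * p) (hasLaurent_vFn hg p _)

/-- **The unit `G(τ)/G(pτ)` is in the function field of `X₀(4p)`.** -/
theorem vL_mem_of (hg : IsG g) {L : Type*} [Field L] [Algebra ℚ L] [IsAlgClosed L] (ι : L →+* ℂ)
    (p : ℕ) [NeZero p] [NeZero (4 * p)] : vL L p ∈ modularFunctionFieldFullC L (4 * p) := by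
  have h2 : FF ℂ (4 * p) = modularFunctionFieldFullC ℂ (4 * p) :=
    HeckeRed.laurentBaseChange_full ℂ (4 * p)
  apply mem_full_of_coeffMap ι (4 * p)
  rw [coeffMap_vL, ← h2]
  exact vL_mem_complex_of hg p

end Fermat.Agent.LU1

end
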